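/-
P-ORD (S33), block B1-NODE, MODEL SIDE (helper8), part 1: **the node pair** (chart language).

Setting: `A` a discrete valuation ring (ANY ramification index over `q`), `E` a field with a
chart `y`, `B = chartClosure A E y`, `𝔪` a maximal ideal of `B` lying on the two vertical
valuations `V_∞`, `V_0`.

* `IsNodePair A E q y 𝔪 V_∞ V_0 X Y` : `X, Y ∈ 𝔪`; `X` vanishes along `V_∞` and is a unit of
  `V_0`; `Y` vanishes along `V_0` and is a unit of `V_∞`; `X Y = q ε` with `ε` a unit of `B_𝔪`;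
  hence `X / q` is a unit of `V_∞`, `Y / q` is a unit of `V_0`, and `X`, `Y` are units at every
  place centred at `𝔪` (no horizontal zero through the node).
* `isNodePair_of_rel` : the package from the relation `d X Y = q ψ`, `d, ψ ∉ 𝔪`.
* `IsNodePair.inLoc_zpow_mul` : **Hartogs at the node**: if `u ∈ V_∞`, `Y ^ m u ∈ V_0` and `u`
  has no pole centred at `𝔪`, then `Y ^ m u ∈ B_𝔪` (`m : ℤ`).
-/
import Fermat.Agent.H11.SS2.Defs
import Fermat.Agent.H59.SS.PlaceEval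

set_option autoImplicit false
set_option linter.style.haveILetI false
set_option linter.unusedSectionVars false

noncomputable section

namespace Fermat.Agent.H8.ORD

open Fermat.Agent.H22.KL Fermat.Agent.H45 Fermat.Agent.H11.SS2

section Abstract

variable (A : Type) [CommRing A] (E : Type) [Field E] [Algebra A E]

/-- `z` is a unit of the valuation ring `V`. -/
def IsValUnit {E : Type} [Field E] (V : ValuationSubring E) (z : E) : Prop :=
  z ∈ V ∧ z⁻¹ ∈ V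

/-- **The node pair** at a crossing point `𝔪` of the two vertical valuations `V_∞`, `V_0`. -/
structure IsNodePair (q : ℕ) (y : E) (𝔪 : Ideal (chartClosure A E y))
    (Voo V0 : ValuationSubring E) (X Y : E) : Prop where
  X_mem : X ∈ chartClosure A E y
  Y_mem : Y ∈ chartClosure A E y
  X_max : ∀ h : X ∈ chartClosure A E y, (⟨X, h⟩ : chartClosure A E y) ∈ 𝔪
  Y_max : ∀ h : Y ∈ chartClosure A E y, (⟨Y, h⟩ : chartClosure A E y) ∈ 𝔪
  X_ne : X ≠ 0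
  Y_ne : Y ≠ 0
  /-- `X` vanishes along `V_∞` -/
  X_oo : X ∈ Voo.nonunits
  /-- `Y` is a unit of `V_∞` -/
  Y_oo : IsValUnit Voo Y
  /-- `Y` vanishes along `V_0` -/
  Y_zero : Y ∈ V0.nonunits
  /-- `X` is a unit of `V_0` -/
  X_zero : IsValUnit V0 X
  /-- `X Y = q ε`, `ε ∈ B_𝔪ˣ` -/
  rel : ∃ ε : E, IsLocUnit A E y 𝔪 ε ∧ X * Y = (q : E) * ε
  /-- `v_∞(X) = v_∞(q)` -/
  Xq_oo : IsValUnit Voo (X / (q : E))
  /-- `v_0(Y) = v_0(q)` -/
  Yq_zero : IsValUnit V0 (Y / (q : E))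
  /-- no horizontal zero of `X`, `Y` through the node -/
  horiz : ∀ V : ValuationSubring E, CentredAt A E y 𝔪 V → IsValUnit V X ∧ IsValUnit V Y

variable {A E}

theorem IsValUnit.mul {V : ValuationSubring E} {a b : E} (ha : IsValUnit V a)
    (hb : IsValUnit V b) : IsValUnit V (a * b) :=
  ⟨V.mul_mem _ _ ha.1 hb.1, by rw [mul_inv]; exact V.mul_mem _ _ ha.2 hb.2⟩

theorem IsValUnit.inv {V : ValuationSubring E} {a : E} (ha : IsValUnit V a) :
    IsValUnit V a⁻¹ :=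
  ⟨ha.2, by rw [inv_inv]; exact ha.1⟩

theorem IsValUnit.zpow {V : ValuationSubring E} {a : E} (ha : IsValUnit V a) (m : ℤ) :
    IsValUnit V (a ^ m) := by
  have key : ∀ n : ℕ, IsValUnit V (a ^ n) := fun n =>
    ⟨V.pow_mem ha.1 n, by rw [← inv_pow]; exact V.pow_mem ha.2 n⟩
  rcases Int.eq_nat_or_neg m with ⟨n, rfl | rfl⟩
  · rw [zpow_natCast]; exact key n
  · rw [zpow_neg, zpow_natCast]; exact (key n).inv

/-- an element of `B ∖ 𝔪` is a unit of every valuation ring `V ⊇ B` whose centre lies in `𝔪` -/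
theorem isValUnit_of_not_mem {y : E} {𝔪 : Ideal (chartClosure A E y)} {V : ValuationSubring E}
    (hB : ∀ s ∈ chartClosure A E y, s ∈ V)
    (hT : ∀ s : chartClosure A E y, (s : E) ∈ V.nonunits → s ∈ 𝔪)
    (s : chartClosure A E y) (hs : s ∉ 𝔪) : IsValUnit V (s : E) := by
  refine ⟨hB _ s.2, ?_⟩
  by_contra h
  exact hs (hT s ((V.mem_nonunits_iff_or).2 (Or.inr h)))

/-- a unit of `B_𝔪` is a unit of every valuation ring `V ⊇ B` whose centre lies in `𝔪` -/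
theorem isValUnit_of_isLocUnit {y : E} {𝔪 : Ideal (chartClosure A E y)} (h𝔪 : 𝔪.IsPrime)
    {V : ValuationSubring E}
    (hB : ∀ s ∈ chartClosure A E y, s ∈ V)
    (hT : ∀ s : chartClosure A E y, (s : E) ∈ V.nonunits → s ∈ 𝔪)
    {ε : E} (hε : IsLocUnit A E y 𝔪 ε) : IsValUnit V ε := by
  have key : ∀ z : E, InLoc A E y 𝔪 z → z ∈ V := by
    rintro z ⟨b, hb, hbz⟩
    have hbu := isValUnit_of_not_mem hB hT b hb
    have hb0 : (b : E) ≠ 0 := by
      intro h0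
      apply hb
      have : b = 0 := Subtype.ext h0
      rw [this]
      exact 𝔪.zero_mem
    have : z = (b : E)⁻¹ * ((b : E) * z) := by
      rw [← mul_assoc, inv_mul_cancel₀ hb0, one_mul]
    rw [this]
    exact V.mul_mem _ _ hbu.2 (hB _ hbz)
  exact ⟨key _ hε.2.1, key _ hε.2.2⟩

/-- **The node pair from the equation of the crossing point** `d X Y = q ψ`, `d, ψ ∉ 𝔪`. -/
theorem isNodePair_of_rel (q : ℕ) (hq0 : (q : E) ≠ 0)
    {y : E} {𝔪 : Ideal (chartClosure A E y)} (h𝔪 : 𝔪.IsPrime)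
    {Voo V0 : ValuationSubring E}
    (hBoo : ∀ s ∈ chartClosure A E y, s ∈ Voo) (hB0 : ∀ s ∈ chartClosure A E y, s ∈ V0)
    (hToo : Through A E y 𝔪 Voo) (hT0 : Through A E y 𝔪 V0)
    (X Y d ψ : chartClosure A E y) (hX : X ∈ 𝔪) (hY : Y ∈ 𝔪) (hd : d ∉ 𝔪) (hψ : ψ ∉ 𝔪)
    (hrel : (d : E) * ((X : E) * (Y : E)) = (q : E) * (ψ : E))
    (hXoo : (X : E) ∈ Voo.nonunits) (hYoo : IsValUnit Voo (Y : E))
    (hY0 : (Y : E) ∈ V0.nonunits) (hX0 : IsValUnit V0 (X : E)) :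
    IsNodePair A E q y 𝔪 Voo V0 (X : E) (Y : E) := by
  have hd0 : (d : E) ≠ 0 := by
    intro h0
    apply hd
    have : d = 0 := Subtype.ext h0
    rw [this]
    exact 𝔪.zero_mem
  have hψ0 : (ψ : E) ≠ 0 := by
    intro h0
    apply hψ
    have : ψ = 0 := Subtype.ext h0
    rw [this]
    exact 𝔪.zero_mem
  have hXY : (X : E) * (Y : E) = (q : E) * ((ψ : E) / (d : E)) := by
    field_simp
    rw [← hrel]
    ring
  have hXYne : (X : E) * (Y : E) ≠ 0 := by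
    rw [hXY]
    exact mul_ne_zero hq0 (div_ne_zero hψ0 hd0)
  have hX0' : (X : E) ≠ 0 := left_ne_zero_of_mul hXYne
  have hY0' : (Y : E) ≠ 0 := right_ne_zero_of_mul hXYne
  have hε : IsLocUnit A E y 𝔪 ((ψ : E) / (d : E)) := by
    refine ⟨div_ne_zero hψ0 hd0, ⟨d, hd, ?_⟩, ⟨ψ, hψ, ?_⟩⟩
    · rw [mul_div_cancel₀ _ hd0]
      exact ψ.2
    · rw [inv_div, mul_div_cancel₀ _ hψ0]
      exact d.2
  have hεoo : IsValUnit Voo ((ψ : E) / (d : E)) :=
    isValUnit_of_isLocUnit h𝔪 hBoo hToo hε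
  have hε0 : IsValUnit V0 ((ψ : E) / (d : E)) :=
    isValUnit_of_isLocUnit h𝔪 hB0 hT0 hε
  have hXq : (X : E) / (q : E) = ((ψ : E) / (d : E)) * (Y : E)⁻¹ := by
    field_simp
    rw [← hrel]
    ring
  have hYq : (Y : E) / (q : E) = ((ψ : E) / (d : E)) * (X : E)⁻¹ := by
    field_simp
    rw [← hrel]
    ring
  refine
    { X_mem := X.2
      Y_mem := Y.2
      X_max := fun _ => hX
      Y_max := fun _ => hY
      X_ne := hX0'
      Y_ne := hY0'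
      X_oo := hXoo
      Y_oo := hYoo
      Y_zero := hY0
      X_zero := hX0
      rel := ⟨_, hε, hXY⟩
      Xq_oo := by rw [hXq]; exact hεoo.mul hYoo.inv
      Yq_zero := by rw [hYq]; exact hε0.mul hX0.inv
      horiz := ?_ }
  intro V hV
  have hBV : ∀ s ∈ chartClosure A E y, s ∈ V := fun s hs =>
    Fermat.Agent.H59.SS.ssp_chartClosure_le hV.1 hs
  have hεV : IsValUnit V ((ψ : E) / (d : E)) := isValUnit_of_isLocUnit h𝔪 hBV hV.2 hε
  have hqV : IsValUnit V (q : E) := by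
    have hqA0 : ((q : ℕ) : A) ≠ 0 := by
      intro h0
      apply hq0
      rw [← map_natCast (algebraMap A E), h0, map_zero]
    have := hV.1.1.2.2 ((q : ℕ) : A) hqA0
    rwa [map_natCast] at this
  have hXYV : IsValUnit V ((X : E) * (Y : E)) := by
    rw [hXY]
    exact hqV.mul hεV
  constructor
  · refine ⟨hBV _ X.2, ?_⟩
    have : (X : E)⁻¹ = (Y : E) * ((X : E) * (Y : E))⁻¹ := by
      field_simp
    rw [this]
    exact V.mul_mem _ _ (hBV _ Y.2) hXYV.2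
  · refine ⟨hBV _ Y.2, ?_⟩
    have : (Y : E)⁻¹ = (X : E) * ((X : E) * (Y : E))⁻¹ := by
      field_simp
    rw [this]
    exact V.mul_mem _ _ (hBV _ X.2) hXYV.2

end Abstract

/-! ### Hartogs at the node -/

section Hartogs

variable {A : Type} [CommRing A] [IsDomain A] [IsDiscreteValuationRing A]
  {E : Type} [Field E] [Algebra A E] [CharZero E]

theorem mul_mem_nonunits_of_mem {V : ValuationSubring E} {a z : E} (ha : a ∈ V)
    (hz : z ∈ V.nonunits) : a * z ∈ V.nonunits := by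
  rw [ValuationSubring.mem_nonunits_iff] at hz ⊢
  rw [map_mul]
  have ha' : V.valuation a ≤ 1 := (V.valuation_le_one_iff a).2 ha
  calc V.valuation a * V.valuation z ≤ 1 * V.valuation z := mul_le_mul' ha' le_rfl
    _ = V.valuation z := one_mul _
    _ < 1 := hz

/-- **Hartogs at the node** (general form): a function of `V_∞ ∩ V_0` without pole centred at
`𝔪` lies in `B_𝔪`; if moreover it lies in `𝔪_V` for a valuation `V ⊇ B` through `𝔪`, it lies in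
`𝔪 B_𝔪`. -/
theorem inLoc_of_node (hH : LocalHartogsStatement)
    (hinj : Function.Injective (algebraMap A E))
    {ϖ : A} (hϖ : Irreducible ϖ) {y : E} (hy : Transcendental A y)
    (hfd : ∃ n : ℕ, Nonempty (Module.Basis (Fin n) (chartField A E y) E))
    {𝔪 : Ideal (chartClosure A E y)} (h𝔪 : 𝔪.IsMaximal)
    (hϖ𝔪 : algebraMap A (chartClosure A E y) ϖ ∈ 𝔪)
    {Voo V0 : ValuationSubring E}
    (hgauss : ∀ z : E, z ∈ Voo → z ∈ V0 → z ∈ gaussClosure A E ϖ y)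
    (z : E) (hzoo : z ∈ Voo) (hz0 : z ∈ V0)
    (hhor : ∀ V : ValuationSubring E, CentredAt A E y 𝔪 V → z ∈ V) :
    InLoc A E y 𝔪 z ∧
      ∀ V : ValuationSubring E, (∀ s ∈ chartClosure A E y, s ∈ V) → Through A E y 𝔪 V →
        z ∈ V.nonunits → ∃ b : chartClosure A E y, b ∉ 𝔪 ∧
          ∃ h : (b : E) * z ∈ chartClosure A E y,
            (⟨(b : E) * z, h⟩ : chartClosure A E y) ∈ 𝔪 := by
  obtain ⟨b, hb, hbz⟩ := hH A E hinj ϖ hϖ y hy hfd 𝔪 h𝔪 hϖ𝔪 z (hgauss _ hzoo hz0) hhor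
  refine ⟨⟨b, hb, hbz⟩, fun V hBV hTV hn => ⟨b, hb, hbz, ?_⟩⟩
  exact hTV ⟨_, hbz⟩ (mul_mem_nonunits_of_mem (hBV _ b.2) hn)

/-- **Hartogs at the node** (`Y`-form): if `u ∈ V_∞`, `Y ^ m u ∈ V_0` (`m : ℤ`) and `u` has no
pole centred at `𝔪`, then `Y ^ m u ∈ B_𝔪`; if moreover `Y ^ m u ∈ 𝔪_{V_0}`, then
`Y ^ m u ∈ 𝔪 B_𝔪`. -/
theorem IsNodePair.inLoc_Y_zpow_mul (hH : LocalHartogsStatement)
    (hinj : Function.Injective (algebraMap A E))
    {ϖ : A} (hϖ : Irreducible ϖ) {y : E} (hy : Transcendental A y)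
    (hfd : ∃ n : ℕ, Nonempty (Module.Basis (Fin n) (chartField A E y) E))
    {𝔪 : Ideal (chartClosure A E y)} (h𝔪 : 𝔪.IsMaximal)
    (hϖ𝔪 : algebraMap A (chartClosure A E y) ϖ ∈ 𝔪)
    {Voo V0 : ValuationSubring E}
    (hgauss : ∀ z : E, z ∈ Voo → z ∈ V0 → z ∈ gaussClosure A E ϖ y)
    (hB0 : ∀ s ∈ chartClosure A E y, s ∈ V0) (hT0 : Through A E y 𝔪 V0)
    {q : ℕ} {X Y : E} (hp : IsNodePair A E q y 𝔪 Voo V0 X Y)
    (u : E) (m : ℤ) (huoo : u ∈ Voo) (hu0 : Y ^ m * u ∈ V0)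
    (hhor : ∀ V : ValuationSubring E, CentredAt A E y 𝔪 V → u ∈ V) :
    InLoc A E y 𝔪 (Y ^ m * u) ∧
      (Y ^ m * u ∈ V0.nonunits → ∃ b : chartClosure A E y, b ∉ 𝔪 ∧
        ∃ h : (b : E) * (Y ^ m * u) ∈ chartClosure A E y,
          (⟨(b : E) * (Y ^ m * u), h⟩ : chartClosure A E y) ∈ 𝔪) := by
  have h1 : Y ^ m * u ∈ Voo := Voo.mul_mem _ _ (hp.Y_oo.zpow m).1 huoo
  have h2 : ∀ V : ValuationSubring E, CentredAt A E y 𝔪 V → Y ^ m * u ∈ V := fun V hV =>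
    V.mul_mem _ _ ((hp.horiz V hV).2.zpow m).1 (hhor V hV)
  obtain ⟨h3, h4⟩ := inLoc_of_node hH hinj hϖ hy hfd h𝔪 hϖ𝔪 hgauss _ h1 hu0 h2
  exact ⟨h3, fun hn => h4 V0 hB0 hT0 hn⟩

/-- **Hartogs at the node** (`X`-form): if `u ∈ V_0`, `X ^ m u ∈ V_∞` (`m : ℤ`) and `u` has no
pole centred at `𝔪`, then `X ^ m u ∈ B_𝔪`; if moreover `X ^ m u ∈ 𝔪_{V_∞}`, then
`X ^ m u ∈ 𝔪 B_𝔪`. -/
theorem IsNodePair.inLoc_X_zpow_mul (hH : LocalHartogsStatement)
    (hinj : Function.Injective (algebraMap A E))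
    {ϖ : A} (hϖ : Irreducible ϖ) {y : E} (hy : Transcendental A y)
    (hfd : ∃ n : ℕ, Nonempty (Module.Basis (Fin n) (chartField A E y) E))
    {𝔪 : Ideal (chartClosure A E y)} (h𝔪 : 𝔪.IsMaximal)
    (hϖ𝔪 : algebraMap A (chartClosure A E y) ϖ ∈ 𝔪)
    {Voo V0 : ValuationSubring E}
    (hgauss : ∀ z : E, z ∈ Voo → z ∈ V0 → z ∈ gaussClosure A E ϖ y)
    (hBoo : ∀ s ∈ chartClosure A E y, s ∈ Voo) (hToo : Through A E y 𝔪 Voo)
    {q : ℕ} {X Y : E} (hp : IsNodePair A E q y 𝔪 Voo V0 X Y)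
    (u : E) (m : ℤ) (hu0 : u ∈ V0) (huoo : X ^ m * u ∈ Voo)
    (hhor : ∀ V : ValuationSubring E, CentredAt A E y 𝔪 V → u ∈ V) :
    InLoc A E y 𝔪 (X ^ m * u) ∧
      (X ^ m * u ∈ Voo.nonunits → ∃ b : chartClosure A E y, b ∉ 𝔪 ∧
        ∃ h : (b : E) * (X ^ m * u) ∈ chartClosure A E y,
          (⟨(b : E) * (X ^ m * u), h⟩ : chartClosure A E y) ∈ 𝔪) := by
  have h1 : X ^ m * u ∈ V0 := V0.mul_mem _ _ (hp.X_zero.zpow m).1 hu0
  have h2 : ∀ V : ValuationSubring E, CentredAt A E y 𝔪 V → X ^ m * u ∈ V := fun V hV =>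
    V.mul_mem _ _ ((hp.horiz V hV).1.zpow m).1 (hhor V hV)
  obtain ⟨h3, h4⟩ := inLoc_of_node hH hinj hϖ hy hfd h𝔪 hϖ𝔪 hgauss _ huoo h1 h2
  exact ⟨h3, fun hn => h4 Voo hBoo hToo hn⟩

/-- **Gluing at the node** (M4): a unit of `V_∞` and of `V_0` without zero or pole centred at
`𝔪` is a unit of `B_𝔪`. -/
theorem isLocUnit_of_node (hH : LocalHartogsStatement)
    (hinj : Function.Injective (algebraMap A E))
    {ϖ : A} (hϖ : Irreducible ϖ) {y : E} (hy : Transcendental A y)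
    (hfd : ∃ n : ℕ, Nonempty (Module.Basis (Fin n) (chartField A E y) E))
    {𝔪 : Ideal (chartClosure A E y)} (h𝔪 : 𝔪.IsMaximal)
    (hϖ𝔪 : algebraMap A (chartClosure A E y) ϖ ∈ 𝔪)
    {Voo V0 : ValuationSubring E}
    (hgauss : ∀ z : E, z ∈ Voo → z ∈ V0 → z ∈ gaussClosure A E ϖ y)
    (u : E) (hu : u ≠ 0) (huoo : IsValUnit Voo u) (hu0 : IsValUnit V0 u)
    (hhor : ∀ V : ValuationSubring E, CentredAt A E y 𝔪 V → IsValUnit V u) :
    IsLocUnit A E y 𝔪 u :=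
  ⟨hu, (inLoc_of_node hH hinj hϖ hy hfd h𝔪 hϖ𝔪 hgauss u huoo.1 hu0.1
      (fun V hV => (hhor V hV).1)).1,
    (inLoc_of_node hH hinj hϖ hy hfd h𝔪 hϖ𝔪 hgauss u⁻¹ huoo.2 hu0.2
      (fun V hV => (hhor V hV).2)).1⟩

end Hartogs

end Fermat.Agent.H8.ORD

end
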