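/-
P-ORD (S33), block B1-NODE, MODEL SIDE (helper8), part 2: **the node pair of the model**
(level `M q`, `4 ∣ M`, `q` an odd prime, `q ∤ M`), over an ARBITRARY discrete valuation ring
`A₀` of the number field `K₁` in which `q` is not a unit (any ramification index).

`nodePkg_h4 : NodePkgStatement M q (h4S ℚ)` : at every maximal ideal `𝔪 ∋ ϖ` of `B(j)` lying on
both components (`Through V_∞`, `Through V_0`), `X = H_q - H ^ q` and `Y = H - H_q ^ q` form a
node pair (`Fermat.Agent.H8.ORD.IsNodePair`).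

Consequences at the model (`nodeHartogs_h4`, `nodeGlue_h4`): Hartogs at the node.
-/
import Fermat.Agent.H8.ORD.NodePair
import Fermat.Agent.H8.SS.CrossData
import Fermat.Agent.H7.SS2.RegLModel
import Fermat.Agent.H7.SS2.NodeContract
import Fermat.Agent.H90.SS2.ModelRed
import Fermat.Agent.H89.KLGauss
import Fermat.Agent.H41.SS.OrdGauss

set_option autoImplicit false
set_option linter.style.haveILetI false
set_option linter.unusedSectionVars false
set_option linter.unusedVariables false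

noncomputable section

namespace Fermat.Agent.H8.ORD

open Polynomial ModularCurve
open scoped Polynomial.Bivariate
open Fermat.Agent.H22.KL Fermat.Agent.H45 Fermat.Agent.H7.SS Fermat.Agent.H11.SS2
open Fermat.Agent.H8.SS Fermat.Agent.H59.SS Fermat.Agent.H7.SS2 Fermat.Agent.H82.SS

/-- **The node package of the model** with Hauptmodul `h₀`. -/
def NodePkgStatement (M q : ℕ) [NeZero M] [NeZero q] (h₀ : LaurentSeries ℚ) : Prop :=
  ∀ (K₁ : Type) [Field K₁] [Algebra ℚ K₁] [FiniteDimensional ℚ K₁]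
    (A₀ : Type) [CommRing A₀] [IsDomain A₀] [IsDiscreteValuationRing A₀]
    [Algebra A₀ K₁] [IsFractionRing A₀ K₁]
    [Algebra A₀ (ModelField K₁ (M * q))] [IsScalarTower A₀ K₁ (ModelField K₁ (M * q))],
    ¬ IsUnit ((q : ℕ) : A₀) →
    ∀ (ϖ : A₀), Irreducible ϖ →
    ∀ (x : ModelField K₁ (M * q)), (x : LaurentSeries K₁) = coeffEmb K₁ jq →
    ∀ (W : ModelField K₁ (M * q) ≃ₐ[K₁] ModelField K₁ (M * q)), IsAtkinLehnerModel K₁ M q W →
    ∀ (H Hq : ModelField K₁ (M * q)), (H : LaurentSeries K₁) = coeffEmb K₁ h₀ →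
      (Hq : LaurentSeries K₁) = qExpand K₁ q (coeffEmb K₁ h₀) →
    ∀ 𝔪 : Ideal (chartClosure A₀ (ModelField K₁ (M * q)) x), 𝔪.IsMaximal →
      algebraMap A₀ (chartClosure A₀ (ModelField K₁ (M * q)) x) ϖ ∈ 𝔪 →
      Through A₀ (ModelField K₁ (M * q)) x 𝔪 (vInf K₁ A₀ (M * q)) →
      Through A₀ (ModelField K₁ (M * q)) x 𝔪 (vZero K₁ A₀ (M * q) W) →
      IsNodePair A₀ (ModelField K₁ (M * q)) q x 𝔪 (vInf K₁ A₀ (M * q))
        (vZero K₁ A₀ (M * q) W) (Hq - H ^ q) (H - Hq ^ q)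

section Units

variable {K₁ : Type} [Field K₁] [Algebra ℚ K₁] {A₀ : Type} [CommRing A₀] [IsDomain A₀]
  [IsDiscreteValuationRing A₀] [Algebra A₀ K₁] [IsFractionRing A₀ K₁] {N : ℕ} [NeZero N]

/-- an element of the model field whose expansion is an integer series with nonzero reduction
modulo `q` is a unit of `V_∞` (any ramification) -/
theorem isValUnit_vInf_of_int (q : ℕ) [Fact q.Prime] (hqA : ¬ IsUnit ((q : ℕ) : A₀))
    (g : ModelField K₁ N) (G' : LaurentSeries ℤ)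
    (hg : (g : LaurentSeries K₁) = coeffMap (Int.castRingHom K₁) G') (hG' : redQ q G' ≠ 0) :
    IsValUnit (vInf K₁ A₀ N) g := by
  haveI : CharZero K₁ := charZero_of_injective_algebraMap (algebraMap ℚ K₁).injective
  have hg0 : g ≠ 0 := ne_zero_of_redQ_ne_zero q g G' hg hG'
  refine ⟨mem_crossVinf_of_int g G' hg, ?_⟩
  rw [mem_vInf_iff]
  refine ⟨1, coeffMap (Int.castRingHom A₀) G', ?_, ?_, gRho_intSeries_ne_zero q hqA G' hG', ?_⟩
  · rw [map_one]
    exact (laurentBaseChange K₁ (modularFunctionFieldFull N)).one_mem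
  · rw [gIota_intSeries, ← hg]
    exact g.2
  · rw [gIota_intSeries, map_one, ← hg]
    have h1 : ((g⁻¹ * g : ModelField K₁ N) : LaurentSeries K₁) = 1 := by
      rw [inv_mul_cancel₀ hg0]
      rfl
    exact h1

end Units

/-- **The node package** (`4 ∣ M`, `q` an odd prime, `q ∤ M`), any ramification. -/
theorem nodePkg_h4 (M q : ℕ) [NeZero M] [NeZero q] (hq : q.Prime) (hq2 : q ≠ 2)
    (hqM : ¬ q ∣ M) (h4 : 4 ∣ M) : NodePkgStatement M q (h4S ℚ) := by
  intro K₁ _ _ _ A₀ _ _ _ _ _ _ _ hqA ϖ hϖ x hx W hW H Hq hH hHq 𝔪 h𝔪 hϖ𝔪 hT₁ hT₂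
  haveI : Fact q.Prime := ⟨hq⟩
  haveI : NeZero (M * q) := ⟨Nat.mul_ne_zero (NeZero.ne M) (NeZero.ne q)⟩
  haveI : CharZero K₁ := charZero_of_injective_algebraMap (algebraMap ℚ K₁).injective
  haveI : CharZero (ModelField K₁ (M * q)) :=
    charZero_of_injective_algebraMap (algebraMap K₁ (ModelField K₁ (M * q))).injective
  have hHS : (H : LaurentSeries K₁) = h4S K₁ :=
    hH.trans (Fermat.Agent.H98.SS.coeffEmb_h4S K₁)
  have hHqS : (Hq : LaurentSeries K₁) = qExpand K₁ q (h4S K₁) := by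
    rw [hHq, Fermat.Agent.H98.SS.coeffEmb_h4S]
  -- row SSH-6
  have hOnI : SSOnInfty K₁ (M * q) A₀ ϖ x 𝔪 :=
    fun s hs => hT₁ s ((Fermat.Agent.H41.SS.ssMaxInfty_iff hϖ _).1 hs)
  have hOnZ : SSOnZero K₁ (M * q) A₀ ϖ W x 𝔪 :=
    fun s hs => hT₂ s ((mem_nonunits_vZero_iff W _).2
      ((Fermat.Agent.H41.SS.ssMaxInfty_iff hϖ _).1 hs))
  obtain ⟨D, Ψ, HB, HqB, hHB, hHqB, hss⟩ :=
    ssCrossData M q h4 hq hq2 hqM K₁ A₀ hqA ϖ hϖ x hx W hW 𝔪 h𝔪 hϖ𝔪 hOnI hOnZ
  have hHBe : (HB : ModelField K₁ (M * q)) = H := Subtype.ext (hHB.trans hHS.symm)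
  have hHqBe : (HqB : ModelField K₁ (M * q)) = Hq := Subtype.ext (hHqB.trans hHqS.symm)
  have hXe : ((HqB - HB ^ q : chartClosure A₀ (ModelField K₁ (M * q)) x) :
      ModelField K₁ (M * q)) = Hq - H ^ q := by
    rw [← hHBe, ← hHqBe]; rfl
  have hYe : ((HB - HqB ^ q : chartClosure A₀ (ModelField K₁ (M * q)) x) :
      ModelField K₁ (M * q)) = H - Hq ^ q := by
    rw [← hHBe, ← hHqBe]; rfl
  -- the action of `W`
  have hβH : heckeBetaBar K₁ M q ⟨h4S K₁, h4S_mem_laurentBaseChange K₁ M h4⟩ = Hq := by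
    apply Subtype.ext
    rw [coe_heckeBetaBar, hHqS]
  have hαH : heckeAlphaBar K₁ M q ⟨h4S K₁, h4S_mem_laurentBaseChange K₁ M h4⟩ = H := by
    apply Subtype.ext
    rw [coe_heckeAlphaBar, hHS]
  have hWH : W H = Hq := by rw [← hαH, hW.1, hβH]
  have hWHq : W Hq = H := by rw [← hβH, hW.2, hαH]
  have hWX : W (Hq - H ^ q) = H - Hq ^ q := by rw [map_sub, map_pow, hWH, hWHq]
  -- the valuations
  have hXV : Hq - H ^ q ∈ (vInf K₁ A₀ (M * q)).nonunits :=
    mem_nonunits_vInf_X M q K₁ A₀ hqA W hW hq h4Z H Hq hHS hHqS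
  have hYV : H - Hq ^ q ∈ (vZero K₁ A₀ (M * q) W).nonunits :=
    mem_nonunits_vZero_Y M q K₁ A₀ hqA W hW hq h4Z H Hq hHS hHqS hWH hWHq
  have hYser : ((H - Hq ^ q : ModelField K₁ (M * q)) : LaurentSeries K₁) =
      coeffMap (Int.castRingHom K₁) (Fermat.Agent.H86.SS2.sY1 ℤ q) := by
    have hser : coeffMap (Int.castRingHom K₁) (Fermat.Agent.H86.SS2.sY1 ℤ q) =
        h4S K₁ - (qExpand K₁ q (h4S K₁)) ^ q := by
      unfold Fermat.Agent.H86.SS2.sY1 Fermat.Agent.H86.SS2.sH Fermat.Agent.H86.SS2.sH1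
      rw [map_sub, map_pow, ModularCurve.coeffMap_qExpand, coeffMap_h4S]
    rw [hser]
    show (H : LaurentSeries K₁) - (Hq : LaurentSeries K₁) ^ q = _
    rw [hHS, hHqS]
  have hYu : IsValUnit (vInf K₁ A₀ (M * q)) (H - Hq ^ q) :=
    isValUnit_vInf_of_int q hqA _ _ hYser (Fermat.Agent.H90.SS2Red.modelRed q hq2).1
  have hXu : IsValUnit (vZero K₁ A₀ (M * q) W) (Hq - H ^ q) := by
    refine ⟨(mem_vZero_iff W _).2 ?_, (mem_vZero_iff W _).2 ?_⟩
    · rw [hWX]; exact hYu.1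
    · rw [map_inv₀, hWX]; exact hYu.2
  -- `B ⊆ V_∞ ∩ V_0`
  have hinj : Function.Injective (algebraMap A₀ (ModelField K₁ (M * q))) :=
    model_algebraMap_injective M q K₁ A₀
  have hT : Transcendental A₀ x := Fermat.Agent.H58.modelTranscendental_jq (M * q) K₁ A₀ x hx
  have hB : ∀ s ∈ chartClosure A₀ (ModelField K₁ (M * q)) x,
      s ∈ vInf K₁ A₀ (M * q) ∧ s ∈ vZero K₁ A₀ (M * q) W := fun s hs =>
    mem_vInf_vZero_of_mem_gaussClosure M q K₁ A₀ hqA ϖ hϖ x hx W hW s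
      (Fermat.Agent.H89.klg_chartClosure_le_gaussClosure hϖ hT hs)
  have hq0 : ((q : ℕ) : ModelField K₁ (M * q)) ≠ 0 := Nat.cast_ne_zero.2 hq.ne_zero
  have hrel := node_rel_of_isSSData hss
  have hrel' : (((D.map (mapRingHom (algebraMap A₀
      (chartClosure A₀ (ModelField K₁ (M * q)) x)))).evalEval HB HqB :
        chartClosure A₀ (ModelField K₁ (M * q)) x) : ModelField K₁ (M * q)) *
      (((HqB - HB ^ q : chartClosure A₀ (ModelField K₁ (M * q)) x) : ModelField K₁ (M * q)) *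
        ((HB - HqB ^ q : chartClosure A₀ (ModelField K₁ (M * q)) x) : ModelField K₁ (M * q)))
      = ((q : ℕ) : ModelField K₁ (M * q)) *
        (((Ψ.map (mapRingHom (algebraMap A₀
          (chartClosure A₀ (ModelField K₁ (M * q)) x)))).evalEval HB HqB :
            chartClosure A₀ (ModelField K₁ (M * q)) x) : ModelField K₁ (M * q)) := by
    have h := congrArg Subtype.val hrel
    rw [map_natCast] at h
    exact h
  have key := isNodePair_of_rel (A := A₀) (E := ModelField K₁ (M * q)) q hq0 h𝔪.isPrime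
    (fun s hs => (hB s hs).1) (fun s hs => (hB s hs).2) hT₁ hT₂
    (HqB - HB ^ q) (HB - HqB ^ q) _ _ hss.X_mem hss.Y_mem hss.D_not_mem hss.Ψ_not_mem hrel'
    (by rw [hXe]; exact hXV) (by rw [hYe]; exact hYu) (by rw [hYe]; exact hYV)
    (by rw [hXe]; exact hXu)
  rw [hXe, hYe] at key
  exact key

end Fermat.Agent.H8.ORD

end
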