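/-
P-ORD (S33), block B1, row 1156 [PG] (helper8, second seat): PLACE GENERATORS at the `ℚ̄`-level,
`Fermat.Agent.H84.ORD.NmPlaceGenStatement M p`, by DESCENT of the landed model statement
`Fermat.Agent.H45.SSPlaceGenStatement` (ordinary points helper41, crossing points helper8/helper59,
cusps helper67), with the dictionary of helper30 (`ddBc`, `ddCentre`) and the restriction of
places of helper70 (`resPlace`, `ord_klBc_eq`, rational places).
-/
import Fermat.Agent.H30.ORD.DescCentre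
import Fermat.Agent.H70.ORD.RatField
import Fermat.Agent.H82.SS.Points
import Fermat.Agent.H32.ORD.NmTotIdeal
import Fermat.Agent.H66.ORD.TotIdeal

set_option autoImplicit false
set_option linter.unusedSectionVars false
set_option linter.unusedVariables false
set_option linter.style.haveILetI false
set_option synthInstance.maxHeartbeats 400000
set_option maxHeartbeats 1000000

noncomputable section

namespace Fermat.Agent.H8.ORD

open Polynomial ModularCurve AlgebraicCurve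
open Fermat.Agent.H22.KL Fermat.Agent.H9.E6 Fermat.Agent.H84.ORD Fermat.Agent.H72.FF
open Fermat.Agent.H7.SS Fermat.Agent.H7.SS2 Fermat.Agent.H66 Fermat.Agent.H30.ORD
open Fermat.Agent.H93.KL (klBc)
open Fermat.Agent.H66.ORD (nmJq ordNumberField_of_fd)

/-- the model statement of the place generators at level `M p`, `p` odd, `4 ∣ M` -/
theorem pg_model (M p : ℕ) [NeZero M] [NeZero p] (hp : p.Prime) (hp2 : p ≠ 2)
    (hpM : ¬ p ∣ M) (h4 : 4 ∣ M) :
    ∃ R₁ : ℕ, 0 < R₁ ∧ Fermat.Agent.H45.SSPlaceGenStatement M p jq R₁ 1 M := by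
  haveI : NeZero (M * p) := ⟨Nat.mul_ne_zero (NeZero.ne M) (NeZero.ne p)⟩
  have hMq : Nat.Coprime M p := ((Nat.Prime.coprime_iff_not_dvd hp).2 hpM).symm
  obtain ⟨R₁, hR₁, hOrd⟩ := Fermat.Agent.H41.SS.ssPlaceGenOrd_all M p hp hpM
    (fun _ => h4) (fun h => absurd h hp2)
  refine ⟨R₁, hR₁, ?_⟩
  exact Fermat.Agent.H45.ssPlaceGen_of_parts M p jq R₁ 1 M
    (Fermat.Agent.H58.modelTranscendental_jq (M * p))
    (Fermat.Agent.H57.SS.modelFinite (M * p))
    (fun K₁ _ _ _ => Fermat.Agent.H62.SS.modelAtkinLehnerExists M p hMq K₁)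
    Fermat.Agent.H66.CT.chartTransfer hOrd
    (Fermat.Agent.H8.SS.ssPlaceGenCross M p h4 hp hp2 hpM 1)
    (Fermat.Agent.H67.SS.ssPlaceGenCusp M p hp hpM)

section Gen

variable {K E : Type} [Field K] [Field E] [Algebra K E]

theorem pg_mem_nonunits_iff_ord (P : Place K E) {f : E} :
    f ∈ P.toValuationSubring.nonunits ↔ f = 0 ∨ 0 < P.ord f := by
  rw [ValuationSubring.mem_nonunits_iff_exists_mem_maximalIdeal]
  constructor
  · rintro ⟨ha, h⟩
    exact (Fermat.Agent.H23.mem_maximalIdeal_iff_ord P ⟨f, ha⟩).1 h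
  · intro h
    have hmem : f ∈ P.toValuationSubring := by
      rw [Fermat.Agent.H23.mem_iff_ord]
      rcases h with h | h
      · exact Or.inl h
      · exact Or.inr h.le
    exact ⟨hmem, (Fermat.Agent.H23.mem_maximalIdeal_iff_ord P ⟨f, hmem⟩).2 h⟩

/-- a uniformiser in the sense of `IsUniformiser` has order one -/
theorem pg_ord_eq_one (P : Place K E) {t : E}
    (ht : IsUniformiser E P.toValuationSubring t) : P.ord t = 1 := by
  obtain ⟨ht0, htn, htd⟩ := ht
  obtain ⟨π, _, hπ⟩ := Fermat.Agent.H23.exists_irreducible_ord_one P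
  have hπ0 : (π : E) ≠ 0 := by
    intro h0
    rw [h0, Place.ord_zero] at hπ
    omega
  have h1 : 0 < P.ord t := by
    rcases (pg_mem_nonunits_iff_ord P).1 htn with h | h
    · exact absurd h ht0
    · exact h
  have hπn : (π : E) ∈ P.toValuationSubring.nonunits :=
    (pg_mem_nonunits_iff_ord P).2 (Or.inr (by rw [hπ]; norm_num))
  have h2 := Fermat.Agent.H23.ord_nonneg_of_mem P (htd _ hπn)
  rw [div_eq_mul_inv, P.ord_mul hπ0 (inv_ne_zero ht0), P.ord_inv, hπ] at h2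
  omega

/-- a unit of the valuation ring has order zero -/
theorem pg_ord_eq_zero (P : Place K E) {t : E} (h1 : t ∈ P.toValuationSubring)
    (h2 : t⁻¹ ∈ P.toValuationSubring) : P.ord t = 0 := by
  have a := Fermat.Agent.H23.ord_nonneg_of_mem P h1
  have b := Fermat.Agent.H23.ord_nonneg_of_mem P h2
  rw [P.ord_inv] at b
  omega

end Gen

section Main

variable (M p : ℕ) [NeZero M] [NeZero p]

/-- the model coordinate `j` over `K₁` -/
def pgX (K₁ : Type) [Field K₁] [Algebra ℚ K₁] (N : ℕ) [NeZero N] : ModelField K₁ N :=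
  Fermat.Agent.H62.SS.ratK (K₁ := K₁) (modularFunctionFieldFull N) (nmJq N)

theorem pgX_coe (K₁ : Type) [Field K₁] [Algebra ℚ K₁] (N : ℕ) [NeZero N] :
    ((pgX K₁ N : ModelField K₁ N) : LaurentSeries K₁) = coeffEmb K₁ jq := rfl

theorem ddBc_pgX {K₁ : Type} [Field K₁] [Algebra ℚ K₁] (ι : K₁ →+* Qb) (N : ℕ) [NeZero N] :
    ddBc ι N (pgX K₁ N) = nmJ N := by
  refine ddBc_eq_of_coeffEmb ι N (pgX K₁ N) (nmJ N) jq (pgX_coe K₁ N) ?_
  show coeffEmb Qb (qExpand ℚ 1 jq) = coeffEmb Qb jq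
  rw [qExpand_one_apply]

/-- the chart coordinate of `P` comes from the model -/
theorem exists_pgY {K₁ : Type} [Field K₁] [Algebra ℚ K₁] (ι : K₁ →+* Qb) (N : ℕ) [NeZero N]
    (A : ValuationSubring Qb) (P : Place Qb (FLb N)) :
    ∃ y₁ : ModelField K₁ N, (y₁ = pgX K₁ N ∨ y₁ = (pgX K₁ N)⁻¹) ∧ ddBc ι N y₁ = nmY A P := by
  classical
  unfold nmY
  split_ifs with h
  · exact ⟨pgX K₁ N, Or.inl rfl, ddBc_pgX ι N⟩
  · exact ⟨(pgX K₁ N)⁻¹, Or.inr rfl, by rw [map_inv₀, ddBc_pgX ι N]⟩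

end Main

section Centre

variable {K₁ : Type} [Field K₁] [Algebra ℚ K₁] (ι : K₁ →+* Qb) (A : ValuationSubring Qb)
  (N : ℕ) [NeZero N] [Algebra ↥(A.comap ι) (ModelField K₁ N)]
  [IsScalarTower ↥(A.comap ι) K₁ (ModelField K₁ N)]

/-- a prelude place is a place in the sense of `IsPlace` -/
theorem pg_isPlace (P₁ : Place K₁ (ModelField K₁ N)) :
    IsPlace ↥(A.comap ι) (ModelField K₁ N) P₁.toValuationSubring := by
  refine ⟨P₁.ne_top', P₁.isPrincipalIdealRing', fun a _ => ⟨?_, ?_⟩⟩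
  · rw [IsScalarTower.algebraMap_apply ↥(A.comap ι) K₁ (ModelField K₁ N)]
    exact P₁.algebraMap_mem' _
  · rw [IsScalarTower.algebraMap_apply ↥(A.comap ι) K₁ (ModelField K₁ N), ← map_inv₀]
    exact P₁.algebraMap_mem' _

/-- **places with the same centre restrict to places centred at the model centre** -/
theorem pg_centredAt (P P' : Place Qb (FLb N)) (hdeg : P.deg = 1) (hdeg' : P'.deg = 1)
    (hc : nmCentre A P' = nmCentre A P)
    (y₁ : ModelField K₁ N) (hy₁ : ddBc ι N y₁ = nmY A P)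
    (hy : ddBc ι N y₁ ∈ nmComp A P hdeg) :
    Fermat.Agent.H45.CentredAt ↥(A.comap ι) (ModelField K₁ N) y₁
      (ddCentre ι A N P hdeg y₁ hy)
      (Fermat.Agent.H70.ORD.resPlace ι (modularFunctionFieldFull N) P').toValuationSubring := by
  have hY : nmY A P' = nmY A P :=
    Fermat.Agent.H32.ORD.nmY_eq_of_centre_eq P P' hdeg hdeg' hc
  refine ⟨⟨pg_isPlace ι A N _, ?_⟩, ?_⟩
  · -- the chart coordinate is regular at `P'`
    show ddBc ι N y₁ ∈ P'.toValuationSubring
    rw [hy₁, ← hY]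
    have h1 : nmY A P' ∈ nmComp A P' hdeg' := Fermat.Agent.H32.ORD.nmY_mem_nmComp P' hdeg'
    obtain ⟨c, -, hv⟩ := h1
    exact (ValuationSubring.valuation_le_one_iff _ _).1 (nmv_le_one_of_hasValue P' hv)
  · intro s hs
    rw [mem_ddCentre_iff]
    have h1 : ddBc ι N (s : ModelField K₁ N) ∈ nmChart N A (nmY A P') := by
      rw [hY, ← hy₁]
      exact ddBc_mem_nmChart ι A N y₁ _ s.2
    have h2 : ddBc ι N (s : ModelField K₁ N) ∈ nmMax A P' := by
      refine ⟨0, ?_, ?_⟩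
      · rw [ValuationSubring.mem_nonunits_iff_exists_mem_maximalIdeal]
        exact ⟨A.zero_mem, Submodule.zero_mem _⟩
      · rcases (pg_mem_nonunits_iff_ord _).1 hs with h0 | h0
        · left
          rw [h0, map_zero, map_zero]
        · right
          rw [map_zero, sub_zero]
          have e := Fermat.Agent.H70.ORD.ord_klBc_eq ι (modularFunctionFieldFull N) P'
            (s : ModelField K₁ N)
          have e' : P'.ord (ddBc ι N (s : ModelField K₁ N)) =
              (Fermat.Agent.H70.ORD.resPlace ι (modularFunctionFieldFull N) P').ord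
                (s : ModelField K₁ N) := e
          rw [e']
          omega
    have h3 : ddBc ι N (s : ModelField K₁ N) ∈ nmCentre A P' := ⟨h1, h2⟩
    rw [hc] at h3
    exact h3.2

end Centre

/-- **[PG] PLACE GENERATORS at the `ℚ̄`-level** (row 1156): every place `P` of `ℚ̄(X₀(M p))` has a
uniformiser which is a unit at all other places with the same centre. -/
theorem nmPlaceGen (M p : ℕ) [NeZero M] [NeZero p] : NmPlaceGenStatement M p := by
  classical
  intro A h P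
  haveI : NeZero (M * p) := ⟨Nat.mul_ne_zero (NeZero.ne M) (NeZero.ne p)⟩
  have hp := h.prime
  have hpM : ¬ p ∣ M := fun hd => hp.one_lt.ne' (Nat.Coprime.eq_one_of_dvd h.cop.symm hd)
  obtain ⟨R₁, hR₁, hPG⟩ := pg_model M p hp h.odd hpM h.four
  have hM0 : 0 < M := Nat.pos_of_ne_zero (NeZero.ne M)
  -- roots of unity
  haveI : NeZero ((R₁ : ℕ) : Qb) := ⟨Nat.cast_ne_zero.mpr hR₁.ne'⟩
  haveI : NeZero ((M : ℕ) : Qb) := ⟨Nat.cast_ne_zero.mpr hM0.ne'⟩
  obtain ⟨ζ₁, hζ₁⟩ := HasEnoughRootsOfUnity.exists_primitiveRoot Qb R₁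
  obtain ⟨ζ₃, hζ₃⟩ := HasEnoughRootsOfUnity.exists_primitiveRoot Qb M
  -- the number field
  obtain ⟨K₀, hK₀fin, hK₀⟩ :=
    Fermat.Agent.H70.ORD.exists_field_rational_place_modular (M * p) P
  haveI := hK₀fin
  have hint : ∀ c : Qb, IsIntegral ℚ c := fun c =>
    ((AlgebraicClosure.isAlgebraic ℚ).isAlgebraic c).isIntegral
  haveI h1fin : FiniteDimensional ℚ ↥(IntermediateField.adjoin ℚ {ζ₁}) :=
    IntermediateField.adjoin.finiteDimensional (hint ζ₁)
  haveI h3fin : FiniteDimensional ℚ ↥(IntermediateField.adjoin ℚ {ζ₃}) :=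
    IntermediateField.adjoin.finiteDimensional (hint ζ₃)
  set K : IntermediateField ℚ Qb :=
    K₀ ⊔ (IntermediateField.adjoin ℚ {ζ₁} ⊔ IntermediateField.adjoin ℚ {ζ₃}) with hK
  haveI : FiniteDimensional ℚ ↥K := by rw [hK]; infer_instance
  haveI : NumberField ↥K := ordNumberField_of_fd ↥K
  have hK₀K : K₀ ≤ K := le_sup_left
  have hζ₁K : ζ₁ ∈ K :=
    (le_sup_right : _ ≤ K) ((le_sup_left : IntermediateField.adjoin ℚ {ζ₁} ≤ _)
      (IntermediateField.mem_adjoin_simple_self ℚ ζ₁))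
  have hζ₃K : ζ₃ ∈ K :=
    (le_sup_right : _ ≤ K) ((le_sup_right : IntermediateField.adjoin ℚ {ζ₃} ≤ _)
      (IntermediateField.mem_adjoin_simple_self ℚ ζ₃))
  set ι : ↥K →+* Qb := algebraMap ↥K Qb with hι
  have hιinj : Function.Injective ι := (algebraMap ↥K Qb).injective
  have hr1 : ∃ ζ : ↥K, IsPrimitiveRoot ζ R₁ :=
    ⟨⟨ζ₁, hζ₁K⟩, IsPrimitiveRoot.of_map_of_injective (f := ι) hζ₁ hιinj⟩
  have hr2 : ∃ ζ : ↥K, IsPrimitiveRoot ζ 1 := ⟨1, IsPrimitiveRoot.one⟩
  have hr3 : ∃ ζ : ↥K, IsPrimitiveRoot ζ M :=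
    ⟨⟨ζ₃, hζ₃K⟩, IsPrimitiveRoot.of_map_of_injective (f := ι) hζ₃ hιinj⟩
  have hpL : ((p : ℕ) : Qb) ≠ 0 := Nat.cast_ne_zero.mpr hp.ne_zero
  haveI hDVR : IsDiscreteValuationRing ↥(A.comap ι) :=
    Fermat.Agent.H93.KL.comap_isDiscreteValuationRing ι A hpL h.liesOver
  obtain ⟨ϖ, hϖ⟩ := IsDiscreteValuationRing.exists_irreducible ↥(A.comap ι)
  letI := modelAlgebra ↥K (A.comap ι) (M * p)
  haveI := modelAlgebra_isScalarTower ↥K (A.comap ι) (M * p)
  have hnu : ¬ IsUnit ((p : ℕ) : ↥(A.comap ι)) := by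
    have h1 := Fermat.Agent.H93.KL.natCast_mem_nonunits_comap ι A h.liesOver
    rw [ValuationSubring.mem_nonunits_iff_exists_mem_maximalIdeal] at h1
    obtain ⟨hmem, hmax⟩ := h1
    rw [IsLocalRing.mem_maximalIdeal, mem_nonunits_iff] at hmax
    intro hu
    apply hmax
    have e : (⟨(p : ↥K), hmem⟩ : ↥(A.comap ι)) = ((p : ℕ) : ↥(A.comap ι)) :=
      Subtype.ext (by simp)
    rw [e]
    exact hu
  -- the chart and the centre
  have hdeg : ∀ P' : Place Qb (FLb (M * p)), P'.deg = 1 :=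
    fun P' => Fermat.Agent.H70.SS.ss_deg_eq_one_bar (M * p) P'
  obtain ⟨y₁, hy₁, hbc⟩ := exists_pgY (K₁ := ↥K) ι (M * p) A P
  have hy : ddBc ι (M * p) y₁ ∈ nmComp A P (hdeg P) := by
    rw [hbc]
    exact Fermat.Agent.H32.ORD.nmY_mem_nmComp P (hdeg P)
  have h𝔪 := ddCentre_isMaximal ι A (M * p) P (hdeg P) y₁ hy
  have hϖ𝔪 := algebraMap_mem_ddCentre ι A (M * p) P (hdeg P) y₁ hy hϖ.not_isUnit
  -- the restricted place
  have hrat := Fermat.Agent.H45.ss_isRationalPlace_of ↥(A.comap ι)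
    (Fermat.Agent.H70.ORD.resPlace ι (modularFunctionFieldFull (M * p)) P) (hK₀ K hK₀K)
  obtain ⟨t, ht, hunit⟩ := hPG ↥K ↥(A.comap ι) hnu hr1 hr2 hr3 ϖ hϖ (pgX ↥K (M * p))
    (pgX_coe ↥K (M * p)) y₁ hy₁ _ h𝔪 hϖ𝔪 _
    (pg_centredAt ι A (M * p) P P (hdeg P) (hdeg P) rfl y₁ hbc hy) hrat
  refine ⟨ddBc ι (M * p) t, ?_, ?_⟩
  · have e : P.ord (ddBc ι (M * p) t) =
        (Fermat.Agent.H70.ORD.resPlace ι (modularFunctionFieldFull (M * p)) P).ord t :=
      Fermat.Agent.H70.ORD.ord_klBc_eq ι (modularFunctionFieldFull (M * p)) P t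
    rw [e]
    exact pg_ord_eq_one _ ht
  · intro P' hc hne
    have hne' : (Fermat.Agent.H70.ORD.resPlace ι (modularFunctionFieldFull (M * p))
        P').toValuationSubring ≠
        (Fermat.Agent.H70.ORD.resPlace ι (modularFunctionFieldFull (M * p))
          P).toValuationSubring := by
      intro heq
      apply hne
      exact (Fermat.Agent.H70.ORD.eq_of_resPlace_eq_modular (M * p) K P P' (hK₀ K hK₀K)
        heq).symm
    obtain ⟨u1, u2⟩ := hunit _
      (pg_centredAt ι A (M * p) P P' (hdeg P) (hdeg P') hc y₁ hbc hy) hne'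
    have e : P'.ord (ddBc ι (M * p) t) =
        (Fermat.Agent.H70.ORD.resPlace ι (modularFunctionFieldFull (M * p)) P').ord t :=
      Fermat.Agent.H70.ORD.ord_klBc_eq ι (modularFunctionFieldFull (M * p)) P' t
    rw [e]
    exact pg_ord_eq_zero _ u1 u2

end Fermat.Agent.H8.ORD
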